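import Fermat.Agent.Lib.Cheb.Spec
import Fermat.Agent.Lib.Cheb.H761.PrimeSum

/-!
# CHEB / Tier 2 / CYC — piece DEG: twisted prime-ideal sums versus sums over rational primes

For a number field `F`, a Dirichlet character `χ` mod `m` and real `1 < s`:
`∑_𝔭 χ(N𝔭) N𝔭^(-s) - ∑_p χ(p) c_F(p) p^(-s)` is the contribution of the primes of degree `≥ 2`,
hence bounded in norm by `H761.highBound F` (a constant depending only on `F`).
-/

set_option autoImplicit false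
set_option linter.unusedSectionVars false
set_option linter.unusedVariables false

open NumberField IsDedekindDomain Filter Topology Ideal
open Fermat.Agent.Lib.Cheb

namespace Fermat.Agent.Lib.Cheb.H104

/-- (DEG) statement, verbatim copy of `H221.TwistedPrimeSumStatement` of helper221's CYC skeleton. -/
def TwistedPrimeSumStatement : Prop :=
  Spec.PrimeSumStatement →
  ∀ (F : Type) [Field F] [NumberField F] (m : ℕ) [NeZero m] (χ : DirichletCharacter ℂ m),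
    ∃ C : ℝ, ∀ s : ℝ, 1 < s → s ≤ 2 →
      Summable (fun p : Nat.Primes => (Spec.primeCount F p : ℝ) * (p : ℝ) ^ (-s)) ∧
      ‖(∑' 𝔭 : HeightOneSpectrum (𝓞 F), χ (Ideal.absNorm 𝔭.asIdeal : ZMod m) *
          (((Ideal.absNorm 𝔭.asIdeal : ℝ) ^ (-s) : ℝ) : ℂ)) -
        ∑' p : Nat.Primes, χ ((p : ℕ) : ZMod m) *
          (((Spec.primeCount F p : ℝ) * (p : ℝ) ^ (-s) : ℝ) : ℂ)‖ ≤ C

noncomputable section

variable (F : Type) [Field F] [NumberField F] (m : ℕ) [NeZero m] (χ : DirichletCharacter ℂ m)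

/-- the twisted term `χ(N𝔭) N𝔭^(-s)` -/
def twTerm (s : ℝ) (𝔭 : HeightOneSpectrum (𝓞 F)) : ℂ :=
  χ (Ideal.absNorm 𝔭.asIdeal : ZMod m) * (((Ideal.absNorm 𝔭.asIdeal : ℝ) ^ (-s) : ℝ) : ℂ)

lemma norm_twTerm_le (s : ℝ) (𝔭 : HeightOneSpectrum (𝓞 F)) :
    ‖twTerm F m χ s 𝔭‖ ≤ H761.normPow F s 𝔭.asIdeal := by
  rw [twTerm, norm_mul, Complex.norm_real, Real.norm_eq_abs,
    abs_of_nonneg (Real.rpow_nonneg (Nat.cast_nonneg _) _)]
  calc ‖χ (Ideal.absNorm 𝔭.asIdeal : ZMod m)‖ * (Ideal.absNorm 𝔭.asIdeal : ℝ) ^ (-s)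
      ≤ 1 * (Ideal.absNorm 𝔭.asIdeal : ℝ) ^ (-s) := by
        gcongr
        exact DirichletCharacter.norm_le_one χ _
    _ = H761.normPow F s 𝔭.asIdeal := by rw [one_mul]; rfl

lemma summable_twTerm {s : ℝ} (hs : 1 < s) : Summable (twTerm F m χ s) :=
  Summable.of_norm_bounded (H761.summable_primeSum F hs) (norm_twTerm_le F m χ s)

lemma summable_norm_twTerm {s : ℝ} (hs : 1 < s) : Summable (fun 𝔭 => ‖twTerm F m χ s 𝔭‖) :=
  Summable.of_nonneg_of_le (fun _ => norm_nonneg _) (norm_twTerm_le F m χ s)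
    (H761.summable_primeSum F hs)

/-- The primes of degree `≥ 2` contribute at most `highBound F` to the twisted sum. -/
lemma norm_tsum_highPrimes_le {s : ℝ} (hs : 1 < s) :
    ‖∑' 𝔭 : H761.highPrimes F, twTerm F m χ s 𝔭.1‖ ≤ H761.highBound F := by
  have h1 : Summable (fun 𝔭 : H761.highPrimes F => ‖twTerm F m χ s 𝔭.1‖) :=
    (summable_norm_twTerm F m χ hs).subtype _
  have h2 : Summable (fun 𝔭 : H761.highPrimes F => H761.normPow F s 𝔭.1.asIdeal) :=
    (H761.summable_primeSum F hs).subtype _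
  calc ‖∑' 𝔭 : H761.highPrimes F, twTerm F m χ s 𝔭.1‖
      ≤ ∑' 𝔭 : H761.highPrimes F, ‖twTerm F m χ s 𝔭.1‖ := norm_tsum_le_tsum_norm h1
    _ ≤ ∑' 𝔭 : H761.highPrimes F, H761.normPow F s 𝔭.1.asIdeal :=
        h1.tsum_le_tsum (fun 𝔭 => norm_twTerm_le F m χ s 𝔭.1) h2
    _ ≤ H761.highBound F := H761.tsum_highPrimes_le F hs

/-- twisted sum over one fibre of the norm map on primes of prime norm -/
lemma tsum_fibre_twTerm (s : ℝ) (p : Nat.Primes) :
    ∑' x : {𝔭 : H761.lowPrimes F // H761.lowNorm F 𝔭 = p}, twTerm F m χ s x.1.1 =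
      χ ((p : ℕ) : ZMod m) * (((Spec.primeCount F p : ℝ) * ((p : ℕ) : ℝ) ^ (-s) : ℝ) : ℂ) := by
  have := H761.finite_fibre F p
  have : Fintype {𝔭 : H761.lowPrimes F // H761.lowNorm F 𝔭 = p} := Fintype.ofFinite _
  rw [tsum_fintype]
  have h : ∀ x : {𝔭 : H761.lowPrimes F // H761.lowNorm F 𝔭 = p},
      twTerm F m χ s x.1.1 = χ ((p : ℕ) : ZMod m) * ((((p : ℕ) : ℝ) ^ (-s) : ℝ) : ℂ) := by
    intro x
    have hx : Ideal.absNorm x.1.1.asIdeal = (p : ℕ) := congrArg Subtype.val x.2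
    simp only [twTerm, hx]
  simp only [h, Finset.sum_const, Finset.card_univ, nsmul_eq_mul, ← H761.card_fibre F p,
    Nat.card_eq_fintype_card]
  push_cast
  ring

/-- The twisted sum over the primes of prime norm, indexed by the rational primes. -/
lemma tsum_lowPrimes_twTerm {s : ℝ} (hs : 1 < s) :
    ∑' 𝔭 : H761.lowPrimes F, twTerm F m χ s 𝔭.1 =
      ∑' p : Nat.Primes, χ ((p : ℕ) : ZMod m) *
        (((Spec.primeCount F p : ℝ) * ((p : ℕ) : ℝ) ^ (-s) : ℝ) : ℂ) := by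
  have hsum : Summable (fun 𝔭 : H761.lowPrimes F => twTerm F m χ s 𝔭.1) :=
    (summable_twTerm F m χ hs).subtype _
  have hsum' : Summable
      (fun y : Σ p : Nat.Primes, {𝔭 : H761.lowPrimes F // H761.lowNorm F 𝔭 = p} =>
        twTerm F m χ s y.2.1.1) :=
    ((Equiv.sigmaFiberEquiv (H761.lowNorm F)).summable_iff
      (f := fun 𝔭 : H761.lowPrimes F => twTerm F m χ s 𝔭.1)).mpr hsum
  calc ∑' 𝔭 : H761.lowPrimes F, twTerm F m χ s 𝔭.1
      = ∑' y : Σ p : Nat.Primes, {𝔭 : H761.lowPrimes F // H761.lowNorm F 𝔭 = p},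
          twTerm F m χ s y.2.1.1 :=
        ((Equiv.sigmaFiberEquiv (H761.lowNorm F)).tsum_eq
          (fun 𝔭 : H761.lowPrimes F => twTerm F m χ s 𝔭.1)).symm
    _ = ∑' p : Nat.Primes, ∑' x : {𝔭 : H761.lowPrimes F // H761.lowNorm F 𝔭 = p},
          twTerm F m χ s x.1.1 := hsum'.tsum_sigma
    _ = _ := tsum_congr fun p => tsum_fibre_twTerm F m χ s p

/-- Summability of `p ↦ c_F(p) p^(-s)` over the rational primes. -/
lemma summable_primeCount_mul {s : ℝ} (hs : 1 < s) :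
    Summable (fun p : Nat.Primes => (Spec.primeCount F p : ℝ) * ((p : ℕ) : ℝ) ^ (-s)) := by
  have hsum : Summable (fun 𝔭 : H761.lowPrimes F => H761.normPow F s 𝔭.1.asIdeal) :=
    (H761.summable_primeSum F hs).subtype _
  have hsum' : Summable
      (fun y : Σ p : Nat.Primes, {𝔭 : H761.lowPrimes F // H761.lowNorm F 𝔭 = p} =>
        H761.normPow F s y.2.1.1.asIdeal) :=
    ((Equiv.sigmaFiberEquiv (H761.lowNorm F)).summable_iff
      (f := fun 𝔭 : H761.lowPrimes F => H761.normPow F s 𝔭.1.asIdeal)).mpr hsum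
  have := hsum'.sigma
  refine this.congr fun p => ?_
  exact H761.tsum_fibre F s p

/-- **DEG, explicit form**: the difference of the twisted prime-ideal sum and the twisted sum
over rational primes is bounded by `highBound F`, for every `s > 1`. -/
theorem norm_twisted_sub_le {s : ℝ} (hs : 1 < s) :
    ‖(∑' 𝔭 : HeightOneSpectrum (𝓞 F), χ (Ideal.absNorm 𝔭.asIdeal : ZMod m) *
        (((Ideal.absNorm 𝔭.asIdeal : ℝ) ^ (-s) : ℝ) : ℂ)) -
      ∑' p : Nat.Primes, χ ((p : ℕ) : ZMod m) *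
        (((Spec.primeCount F p : ℝ) * (p : ℝ) ^ (-s) : ℝ) : ℂ)‖ ≤ H761.highBound F := by
  have hsum := summable_twTerm F m χ hs
  have hsplit : (∑' 𝔭 : HeightOneSpectrum (𝓞 F), twTerm F m χ s 𝔭) =
      (∑' 𝔭 : H761.lowPrimes F, twTerm F m χ s 𝔭.1) +
        ∑' 𝔭 : H761.highPrimes F, twTerm F m χ s 𝔭.1 := by
    have hc : H761.highPrimes F = (H761.lowPrimes F)ᶜ := rfl
    rw [hc]
    exact ((hsum.subtype _).tsum_add_tsum_compl (hsum.subtype _)).symm
  have hlow := tsum_lowPrimes_twTerm F m χ hs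
  have hhigh := norm_tsum_highPrimes_le F m χ hs
  have heq : (∑' 𝔭 : HeightOneSpectrum (𝓞 F), χ (Ideal.absNorm 𝔭.asIdeal : ZMod m) *
        (((Ideal.absNorm 𝔭.asIdeal : ℝ) ^ (-s) : ℝ) : ℂ)) -
      ∑' p : Nat.Primes, χ ((p : ℕ) : ZMod m) *
        (((Spec.primeCount F p : ℝ) * (p : ℝ) ^ (-s) : ℝ) : ℂ) =
      ∑' 𝔭 : H761.highPrimes F, twTerm F m χ s 𝔭.1 := by
    have h0 : (∑' 𝔭 : HeightOneSpectrum (𝓞 F), χ (Ideal.absNorm 𝔭.asIdeal : ZMod m) *
        (((Ideal.absNorm 𝔭.asIdeal : ℝ) ^ (-s) : ℝ) : ℂ)) =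
        ∑' 𝔭 : HeightOneSpectrum (𝓞 F), twTerm F m χ s 𝔭 := rfl
    rw [h0, hsplit, hlow]
    ring
  rw [heq]
  exact hhigh

/-- **Piece DEG** of helper221's CYC skeleton. -/
theorem twistedPrimeSum : TwistedPrimeSumStatement := by
  intro _ F _ _ m _ χ
  exact ⟨H761.highBound F, fun s hs1 _ =>
    ⟨summable_primeCount_mul F hs1, norm_twisted_sub_le F m χ hs1⟩⟩

end

end Fermat.Agent.Lib.Cheb.H104
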